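import Fermat.Agent.Deuring.Main
import Fermat.Agent.FunField.RR

/-!
# Existence of nonspecial effective divisors of degree `g`
-/

set_option autoImplicit false

noncomputable section

open AlgebraicCurve Module IntermediateField

namespace Fermat.Agent.TorsInj

open Fermat.Agent.FunField Fermat.Agent.FunField.PlaceLemmas

variable {K F : Type*} [Field K] [Field F] [Algebra K F]

/-- A function field over an infinite constant field has infinitely many places. -/
theorem infinite_place [h : IsFF K F] [Infinite K] : Infinite (Place K F) := by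
  obtain ⟨x, hx, -⟩ := h.exists_transcendental
  have htr : ∀ a : K, Transcendental K (x - algebraMap K F a) := by
    intro a ha
    apply hx
    have := ha.add (isAlgebraic_algebraMap (R := K) (A := F) a)
    rwa [sub_add_cancel] at this
  have hex : ∀ a : K, ∃ v : Place K F, 0 < v.ord (x - algebraMap K F a) :=
    fun a => exists_place_ord_pos (htr a)
  choose v hv using hex
  refine Infinite.of_injective v fun a b hab => ?_
  by_contra hne
  have h1 := hv a
  have h2 := hv b
  rw [← hab] at h2
  have hx1 : x - algebraMap K F a ≠ 0 := fun h0 => htr a (by rw [h0]; exact isAlgebraic_zero)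
  have hx2 : x - algebraMap K F b ≠ 0 := fun h0 => htr b (by rw [h0]; exact isAlgebraic_zero)
  have hx3 : (x - algebraMap K F a) + -(x - algebraMap K F b) = algebraMap K F (b - a) := by
    rw [map_sub]; ring
  have hne' : algebraMap K F (b - a) ≠ 0 := by
    rw [map_ne_zero_iff _ (algebraMap K F).injective]
    exact sub_ne_zero.mpr (Ne.symm hne)
  have h3 := min_ord_le_ord_add (v a) hx1 (neg_ne_zero.mpr hx2) (by rw [hx3]; exact hne')
  rw [hx3, ord_algebraMap, ord_neg] at h3
  omega

/-- removing a general point lowers the dimension by exactly one. -/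
theorem exists_sub_single [IsFF K F] [IsAlgClosed K] (G : Divisor K F)
    (hG : 0 < finrank K (riemannRochSpace G)) :
    ∃ v : Place K F, finrank K (riemannRochSpace (G - Finsupp.single v 1)) + 1 =
      finrank K (riemannRochSpace G) := by
  classical
  obtain ⟨f, hf, hf0⟩ := exists_ne_zero_of_finrank_pos hG
  have : Infinite (Place K F) := infinite_place
  obtain ⟨v, hv⟩ := Infinite.exists_notMem_finset (G + divOf f).support
  refine ⟨v, ?_⟩
  rw [Finsupp.notMem_support_iff, Finsupp.add_apply, divOf_apply] at hv
  have hle : G - Finsupp.single v 1 ≤ G := by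
    rw [sub_le_self_iff, Finsupp.le_def]
    intro w
    rw [Finsupp.zero_apply, Finsupp.single_apply]
    split_ifs <;> norm_num
  have h1 := finrank_rr_le_of_le hle
  have h2 := finrank_rr_mono hle
  rw [map_sub, sub_sub_cancel, Divisor.degree_single] at h1
  have hdeg : v.deg = 1 := Fermat.Agent.Deuring.deg_eq_one v
  rw [hdeg] at h1
  have h3 : finrank K (riemannRochSpace (G - Finsupp.single v 1)) ≠
      finrank K (riemannRochSpace G) := by
    intro heq
    have h4 := Submodule.eq_of_le_of_finrank_eq (rr_mono hle) heq
    rw [← h4] at hf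
    have h5 := (Fermat.Agent.Deuring.mem_rr_of_ne hf0).mp hf v
    rw [Finsupp.sub_apply, Finsupp.single_eq_same] at h5
    omega
  omega

theorem exists_sub_effective [IsFF K F] [IsAlgClosed K] (t : ℕ) : ∀ (G : Divisor K F),
    finrank K (riemannRochSpace G) = t + 1 →
    ∃ G' : Divisor K F, Divisor.degree G' = Divisor.degree G - t ∧
      finrank K (riemannRochSpace G') = 1 := by
  induction t with
  | zero => intro G hG; exact ⟨G, by simp, by simpa using hG⟩
  | succ t ih =>
    intro G hG
    obtain ⟨v, hv⟩ := exists_sub_single G (by omega)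
    obtain ⟨G', h1, h2⟩ := ih (G - Finsupp.single v 1) (by omega)
    refine ⟨G', ?_, h2⟩
    rw [h1, map_sub, Divisor.degree_single, Fermat.Agent.Deuring.deg_eq_one v]
    push_cast
    ring

/-- Riemann's inequality. -/
theorem riemann_ineq [IsFF K F] [IsAlgClosed K] (D : Divisor K F) :
    Divisor.degree D + 1 - (genusFF K F : ℤ) ≤ finrank K (riemannRochSpace D) := by
  have := riemann_roch D
  omega

/-- There is a nonspecial effective divisor of degree `g`. -/
theorem exists_nonspecial [IsFF K F] [IsAlgClosed K] :
    ∃ E : Divisor K F, 0 ≤ E ∧ Divisor.degree E = genusFF K F ∧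
      finrank K (riemannRochSpace E) = 1 := by
  classical
  obtain ⟨N, hN⟩ := exists_h1_vanishing (K := K) (F := F)
  obtain ⟨P⟩ := Fermat.Agent.FunField.exists_place (K := K) (F := F)
  obtain ⟨n, hn1, hn2⟩ : ∃ n : ℕ, N ≤ n ∧ (genusFF K F : ℤ) ≤ n :=
    ⟨(max N (genusFF K F)).toNat, (le_max_left _ _).trans (Int.self_le_toNat _),
      (le_max_right _ _).trans (Int.self_le_toNat _)⟩
  set G : Divisor K F := Finsupp.single P (n : ℤ) with hGdef
  have hdegG : Divisor.degree G = n := by
    rw [hGdef, Divisor.degree_single, Fermat.Agent.Deuring.deg_eq_one P]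
    simp
  have hs := hN G (by rw [hdegG]; exact hn1)
  have h0 : finrank K (H1 G) = 0 := Module.finrank_zero_of_subsingleton
  have hRR := riemann_roch G
  rw [h0, hdegG] at hRR
  obtain ⟨t, ht⟩ := Int.eq_ofNat_of_zero_le (sub_nonneg.mpr hn2)
  obtain ⟨G', hG'1, hG'2⟩ := exists_sub_effective t G (by push_cast at hRR; omega)
  obtain ⟨f, hf, hf0⟩ := exists_ne_zero_of_finrank_pos (D := G') (by omega)
  refine ⟨G' + divOf f, ?_, ?_, ?_⟩
  · rw [Finsupp.le_def]
    intro v
    have := (Fermat.Agent.Deuring.mem_rr_of_ne hf0).mp hf v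
    rw [Finsupp.zero_apply, Finsupp.add_apply, divOf_apply]
    omega
  · rw [map_add, degree_divOf, add_zero, hG'1, hdegG]
    omega
  · have h1 := finrank_rr_sub_divOf (G' + divOf f) hf0
    rw [add_sub_cancel_right] at h1
    omega

/-- `RRLarge` determines the genus. -/
theorem genus_eq_of_rrLarge [IsFF K F] [IsAlgClosed K] {g : ℤ}
    (h : Fermat.Agent.Deuring.RRLarge K F g) : g = genusFF K F := by
  classical
  obtain ⟨c, hc⟩ := h
  obtain ⟨N, hN⟩ := exists_h1_vanishing (K := K) (F := F)
  obtain ⟨P⟩ := Fermat.Agent.FunField.exists_place (K := K) (F := F)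
  set G : Divisor K F := Finsupp.single P (max N c) with hGdef
  have hdegG : Divisor.degree G = max N c := by
    rw [hGdef, Divisor.degree_single, Fermat.Agent.Deuring.deg_eq_one P]
    simp
  have hs := hN G (by rw [hdegG]; exact le_max_left _ _)
  have h0 : finrank K (H1 G) = 0 := Module.finrank_zero_of_subsingleton
  have hRR := riemann_roch G
  rw [h0] at hRR
  have h1 := (hc G (by rw [hdegG]; exact le_max_right _ _)).2
  push_cast at hRR
  omega

/-- `RRLarge` holds for the genus. -/
theorem rrLarge_genusFF [IsFF K F] [IsAlgClosed K] :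
    Fermat.Agent.Deuring.RRLarge K F (genusFF K F) := by
  obtain ⟨N, hN⟩ := exists_h1_vanishing (K := K) (F := F)
  refine ⟨N, fun D hD => ⟨inferInstance, ?_⟩⟩
  have hs := hN D hD
  have h0 : finrank K (H1 D) = 0 := Module.finrank_zero_of_subsingleton
  have hRR := riemann_roch D
  rw [h0] at hRR
  push_cast at hRR
  omega

end Fermat.Agent.TorsInj
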