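import Fermat.Agent.TorsInj.Best
import Fermat.Agent.TorsInj.Nonspecial

/-!
# The kernel of reduction has no torsion prime to the residue characteristic

Abstract form in the setting of a Deuring reduction datum with equality of genera.
-/

set_option autoImplicit false
set_option linter.unusedSectionVars false
set_option maxHeartbeats 400000

noncomputable section

open AlgebraicCurve Module

namespace Fermat.Agent.TorsInj

open Fermat.Agent.Deuring Fermat.Agent.FunField Fermat.Agent.FunField.PlaceLemmas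

section General

variable {K F : Type*} [Field K] [Field F] [Algebra K F]

theorem degree_mapDomain' {L F' : Type*} [Field L] [Field F'] [Algebra L F'] [IsFF K F]
    [IsAlgClosed K] [IsFF L F'] [IsAlgClosed L] (r : Place L F' → Place K F) (D : Divisor L F') :
    Divisor.degree (Finsupp.mapDomain r D) = Divisor.degree D := by
  induction D using Finsupp.induction with
  | zero => simp
  | single_add P n D _ _ ih =>
    rw [Finsupp.mapDomain_add, map_add, map_add, ih, Finsupp.mapDomain_single,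
      Divisor.degree_single, Divisor.degree_single, Fermat.Agent.Deuring.deg_eq_one,
      Fermat.Agent.Deuring.deg_eq_one]

theorem mapDomain_nonneg {α β : Type*} (r : α → β) {D : α →₀ ℤ} (hD : 0 ≤ D) :
    0 ≤ Finsupp.mapDomain r D := by
  classical
  rw [Finsupp.le_def]
  intro b
  rw [Finsupp.zero_apply, Finsupp.mapDomain, Finsupp.sum_apply, Finsupp.sum]
  refine Finset.sum_nonneg fun a _ => ?_
  have h1 := Finsupp.le_def.mp hD a
  rw [Finsupp.zero_apply] at h1
  rw [Finsupp.single_apply]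
  split_ifs
  · exact h1
  · exact le_rfl

theorem mapDomain_mono {α β : Type*} (r : α → β) {D E : α →₀ ℤ} (h : D ≤ E) :
    Finsupp.mapDomain r D ≤ Finsupp.mapDomain r E := by
  have h1 := mapDomain_nonneg r (sub_nonneg.mpr h)
  rw [Finsupp.mapDomain_sub] at h1
  exact sub_nonneg.mp h1

theorem mapDomain_nsmul {α β : Type*} (r : α → β) (n : ℕ) (D : α →₀ ℤ) :
    Finsupp.mapDomain r (n • D) = n • Finsupp.mapDomain r D :=
  map_nsmul (Finsupp.mapDomain.addMonoidHom r) n D

theorem divOf_mul [IsFF K F] {f g : F} (hf : f ≠ 0) (hg : g ≠ 0) :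
    (divOf (f * g) : Divisor K F) = divOf f + divOf g := by
  ext v
  rw [Finsupp.add_apply, divOf_apply, divOf_apply, divOf_apply, v.ord_mul hf hg]

theorem divOf_pow [IsFF K F] (f : F) (n : ℕ) :
    (divOf (f ^ n) : Divisor K F) = n • divOf f := by
  ext v
  rw [Finsupp.smul_apply, divOf_apply, divOf_apply, ord_pow, nsmul_eq_mul]

theorem divOf_inv [IsFF K F] (f : F) : (divOf f⁻¹ : Divisor K F) = -divOf f := by
  ext v
  rw [Finsupp.neg_apply, divOf_apply, divOf_apply, v.ord_inv]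

theorem divOf_algebraMap [IsFF K F] (c : K) : (divOf (algebraMap K F c) : Divisor K F) = 0 := by
  ext v
  rw [Finsupp.zero_apply, divOf_apply, ord_algebraMap]

theorem mem_rr_iff_divOf [IsFF K F] {D : Divisor K F} {f : F} (hf : f ≠ 0) :
    f ∈ riemannRochSpace D ↔ 0 ≤ D + divOf f := by
  rw [Fermat.Agent.Deuring.mem_rr_of_ne hf, Finsupp.le_def]
  refine forall_congr' fun v => ?_
  rw [Finsupp.zero_apply, Finsupp.add_apply, divOf_apply]
  constructor <;> intro h <;> omega

/-- an effective divisor with `l(E) = 1` has only constants in `L(E)`. -/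
theorem exists_const_of_mem [IsFF K F] {E : Divisor K F} (hE : 0 ≤ E)
    (h1 : finrank K (riemannRochSpace E) = 1) {f : F} (hf : f ∈ riemannRochSpace E) :
    ∃ c : K, algebraMap K F c = f := by
  have hone : (1 : F) ∈ riemannRochSpace E := one_mem_rr hE
  obtain ⟨c, hc⟩ := (finrank_eq_one_iff_of_nonzero' (⟨1, hone⟩ : riemannRochSpace E)
    (fun h => one_ne_zero (congrArg Subtype.val h))).mp h1 ⟨f, hf⟩
  refine ⟨c, ?_⟩
  have := congrArg Subtype.val hc
  rw [Algebra.algebraMap_eq_smul_one]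
  exact this

/-- the pole divisor of `L(H)` is `H` when the degree of `H` is large. -/
theorem exists_isPoleDiv_rr [IsFF K F] [IsAlgClosed K] :
    ∃ c : ℤ, ∀ H : Divisor K F, c ≤ Divisor.degree H → IsPoleDiv (riemannRochSpace H) H := by
  classical
  obtain ⟨c, hc⟩ := rrLarge_genusFF (K := K) (F := F)
  refine ⟨c + 1, fun H hH => ⟨le_rfl, fun v => ?_⟩⟩
  have hd : Divisor.degree (H - Finsupp.single v 1) = Divisor.degree H - 1 := by
    rw [map_sub, Divisor.degree_single, Fermat.Agent.Deuring.deg_eq_one v]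
    norm_num
  have h1 := (hc H (by omega)).2
  have h2 := (hc (H - Finsupp.single v 1) (by omega)).2
  rw [hd] at h2
  have hle : riemannRochSpace (H - Finsupp.single v 1) ≤ riemannRochSpace H := by
    apply Fermat.Agent.FunField.rr_mono
    rw [sub_le_self_iff, Finsupp.le_def]
    intro w
    rw [Finsupp.zero_apply, Finsupp.single_apply]
    split_ifs <;> norm_num
  obtain ⟨f, hf, hfn⟩ : ∃ f ∈ riemannRochSpace H, f ∉ riemannRochSpace (H - Finsupp.single v 1) := by
    by_contra hcon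
    push Not at hcon
    have h3 : riemannRochSpace (H - Finsupp.single v 1) = riemannRochSpace H :=
      le_antisymm hle hcon
    rw [h3] at h2
    omega
  have hf0 : f ≠ 0 := fun h0 => hfn (h0 ▸ Submodule.zero_mem _)
  refine ⟨f, hf, hf0, ?_⟩
  have h4 := (Fermat.Agent.Deuring.mem_rr_of_ne hf0).mp hf
  rw [Fermat.Agent.Deuring.mem_rr_of_ne hf0] at hfn
  push Not at hfn
  obtain ⟨w, hw⟩ := hfn
  have h5 := h4 w
  rw [Finsupp.sub_apply, Finsupp.single_apply] at hw
  split_ifs at hw with hvw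
  · subst hvw; omega
  · omega

end General

variable {L k F F₁ : Type*} [Field L] [Field k] [Field F] [Field F₁] [Algebra L F] [Algebra k F₁]
  [IsFF L F] [IsFF k F₁] [IsAlgClosed L] [IsAlgClosed k]
  (𝔇 : Data L k F F₁)

/-- compatibility of a map of places with the reduction of functions. -/
def IsPlaceRed (r : Place L F → Place k F₁) : Prop :=
  ∀ f : 𝔇.O, 𝔇.res f ≠ 0 → ∀ G : Divisor L F, (∀ P, G P = P.ord (f : F)) →
    ∀ Q, Finsupp.mapDomain r G Q = Q.ord (𝔇.res f)

variable {𝔇} {r : Place L F → Place k F₁}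

theorem IsPlaceRed.mapDomain_divOf (hr : IsPlaceRed 𝔇 r) {f : 𝔇.O} (hf : 𝔇.res f ≠ 0) :
    Finsupp.mapDomain r (divOf (f : F)) = divOf (𝔇.res f) := by
  ext Q
  rw [divOf_apply]
  exact hr f hf _ (fun P => divOf_apply _ _) Q

theorem IsPlaceRed.surjective (hr : IsPlaceRed 𝔇 r) : Function.Surjective r := by
  classical
  intro x
  obtain ⟨t, ht0, ht⟩ := exists_ord_eq_one x
  obtain ⟨f, rfl⟩ := 𝔇.res_surj t
  have h1 := hr.mapDomain_divOf ht0
  have h2 : Finsupp.mapDomain r (divOf (f : F)) x ≠ 0 := by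
    rw [h1, divOf_apply, ht]
    exact one_ne_zero
  rw [← Finsupp.mem_support_iff] at h2
  obtain ⟨P, -, hP⟩ := Finset.mem_image.mp (Finsupp.mapDomain_support h2)
  exact ⟨P, hP⟩

theorem IsPlaceRed.red_le (hr : IsPlaceRed 𝔇 r) (E : Divisor L F) :
    𝔇.red (riemannRochSpace E) ≤ riemannRochSpace (Finsupp.mapDomain r E) := by
  rintro x ⟨f, hf, rfl⟩
  by_cases h0 : 𝔇.res f = 0
  · rw [h0]; exact Submodule.zero_mem _
  have hf0 : (f : F) ≠ 0 := 𝔇.coe_ne_zero_of_res_ne_zero h0
  rw [mem_rr_iff_divOf hf0] at hf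
  rw [mem_rr_iff_divOf h0, ← hr.mapDomain_divOf h0, ← Finsupp.mapDomain_add]
  exact mapDomain_nonneg r hf

/-- dividing by a power of a function of exact order -/
theorem mem_geSub_of_mul_pow {K E : Type*} [Field K] [Field E] [Algebra K E] {v : Place K E}
    {ρ u : E} (hu : u ≠ 0) {h : ℤ} (hv : v.ord u = -h) (n : ℕ)
    (hmem : ρ * u ^ n ∈ geSub v (-((n + 1 : ℕ) * h))) : ρ ∈ geSub v (-h) := by
  rcases eq_or_ne ρ 0 with rfl | hρ
  · exact Submodule.zero_mem _
  rw [mem_geSub_of_ne (mul_ne_zero hρ (pow_ne_zero _ hu)), v.ord_mul hρ (pow_ne_zero _ hu),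
    ord_pow, hv] at hmem
  rw [mem_geSub_of_ne hρ]
  push_cast at hmem
  linarith

theorem algA {R : Type*} [CommRing R] {f c0 A φ U1 U2 V ψ B B' Q M : R} (hf : f = c0 + A * φ)
    (hU : U1 = U2 + M * V * (B * ψ) + Q * (B * ψ) ^ 2) (hB : B = A * B') :
    f * U2 - c0 * U1 = A * (φ * U2 - c0 * (M * V * (B' * ψ)) - c0 * (Q * (B' * B * ψ ^ 2))) := by
  rw [hf, hU]
  linear_combination (-(c0 * (M * V * ψ)) - c0 * Q * B * ψ ^ 2) * hB

theorem algB {R : Type*} [CommRing R] {f c0 A A' φ U1 U2 V ψ B Q M : R} (hf : f = c0 + A * φ)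
    (hU : U1 = U2 + M * V * (B * ψ) + Q * (B * ψ) ^ 2) (hA : A = B * A') :
    f * U2 - c0 * U1 = B * (A' * (φ * U2) - c0 * (M * V * ψ) - c0 * (Q * (B * ψ ^ 2))) := by
  rw [hf, hU]
  linear_combination (φ * U2) * hA

/-- **Torsion prime to the residue characteristic injects under reduction** (abstract form). -/
theorem torsion_injective {g : ℤ} (hRR : RRLarge L F g) (hRR₁ : RRLarge k F₁ g)
    (hr : IsPlaceRed 𝔇 r)
    (hr2 : ∃ c : ℤ, ∀ E : Divisor L F, c ≤ Divisor.degree E →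
      𝔇.red (riemannRochSpace E) = riemannRochSpace (Finsupp.mapDomain r E))
    {m : ℕ} (hm : (m : k) ≠ 0) {D : Divisor L F}
    (hmD : Divisor.IsPrincipal (m • D)) (hrD : Divisor.IsPrincipal (Finsupp.mapDomain r D)) :
    Divisor.IsPrincipal D := by
  classical
  have hm0 : m ≠ 0 := by rintro rfl; exact hm Nat.cast_zero
  have hgL : g = genusFF L F := genus_eq_of_rrLarge hRR
  have hgk : g = genusFF k F₁ := genus_eq_of_rrLarge hRR₁
  -- degree zero
  obtain ⟨f₀, hf₀0, hf₀⟩ := hmD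
  have hmD' : m • D = divOf f₀ := by ext v; rw [hf₀ v, divOf_apply]
  have hdeg : Divisor.degree D = 0 := by
    have h1 := congrArg Divisor.degree hmD'
    rw [map_nsmul, degree_divOf, nsmul_eq_mul] at h1
    rcases mul_eq_zero.mp h1 with h2 | h2
    · exact absurd (by exact_mod_cast h2) hm0
    · exact h2
  obtain ⟨gb, hgb0, hgb⟩ := hrD
  have hrD' : Finsupp.mapDomain r D = divOf gb := by ext v; rw [hgb v, divOf_apply]
  -- the nonspecial divisor
  obtain ⟨Eb, hEb0, hEbdeg, hEb1⟩ := exists_nonspecial (K := k) (F := F₁)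
  obtain ⟨s, hs⟩ := hr.surjective.hasRightInverse
  set E2 : Divisor L F := Finsupp.mapDomain s Eb with hE2
  have hE20 : 0 ≤ E2 := mapDomain_nonneg s hEb0
  have hrE2 : Finsupp.mapDomain r E2 = Eb := by
    rw [hE2, ← Finsupp.mapDomain_comp, hs.comp_eq_id, Finsupp.mapDomain_id]
  have hE2deg : Divisor.degree E2 = g := by
    rw [hE2, degree_mapDomain', hEbdeg, hgk]
  -- `D + E2` is effective up to linear equivalence
  obtain ⟨h, hhO, hh0, hhmem⟩ : ∃ h : F, ∃ hO : h ∈ 𝔇.O, 𝔇.res ⟨h, hO⟩ ≠ 0 ∧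
      h ∈ riemannRochSpace (D + E2) := by
    have h1 := riemann_ineq (D + E2)
    rw [map_add, hdeg, hE2deg, hgL] at h1
    obtain ⟨h', hh', hh'0⟩ := exists_ne_zero_of_finrank_pos (D := D + E2) (by omega)
    obtain ⟨c, hc0, hcO, hcres⟩ := 𝔇.exists_smul_res_ne_zero hh'0
    exact ⟨c • h', hcO, hcres, Submodule.smul_mem _ _ hh'⟩
  have hhne : h ≠ 0 := 𝔇.coe_ne_zero_of_res_ne_zero hh0
  set E1 : Divisor L F := D + E2 + divOf h with hE1
  have hE10 : 0 ≤ E1 := (mem_rr_iff_divOf hhne).mp hhmem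
  have hrh : Finsupp.mapDomain r (divOf h) = divOf (𝔇.res ⟨h, hhO⟩) := hr.mapDomain_divOf hh0
  have hrE1 : Finsupp.mapDomain r E1 = Eb := by
    have h1 : Finsupp.mapDomain r E1 = Eb + divOf (gb * 𝔇.res ⟨h, hhO⟩) := by
      rw [hE1, Finsupp.mapDomain_add, Finsupp.mapDomain_add, hrE2, hrh, hrD',
        divOf_mul hgb0 hh0]
      abel
    have h2 : gb * 𝔇.res ⟨h, hhO⟩ ∈ riemannRochSpace Eb := by
      rw [mem_rr_iff_divOf (mul_ne_zero hgb0 hh0), ← h1]
      exact mapDomain_nonneg r hE10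
    obtain ⟨c, hc⟩ := exists_const_of_mem hEb0 hEb1 h2
    rw [h1, ← hc, divOf_algebraMap, add_zero]
  have hE1deg : Divisor.degree E1 = g := by
    rw [hE1, map_add, map_add, hdeg, hE2deg, degree_divOf]; ring
  -- the function `f`
  obtain ⟨f, hfres0, hfdiv⟩ : ∃ f : 𝔇.O, 𝔇.res f ≠ 0 ∧ (divOf (f : F) : Divisor L F)
      = m • (E1 - E2) := by
    obtain ⟨c, hc0, hcO, hcres⟩ := 𝔇.exists_smul_res_ne_zero
      (mul_ne_zero hf₀0 (pow_ne_zero m hhne))
    refine ⟨⟨_, hcO⟩, hcres, ?_⟩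
    show (divOf (c • (f₀ * h ^ m)) : Divisor L F) = _
    rw [Algebra.smul_def, divOf_mul (by simpa using hc0) (mul_ne_zero hf₀0 (pow_ne_zero m hhne)),
      divOf_algebraMap, zero_add, divOf_mul hf₀0 (pow_ne_zero m hhne), divOf_pow, ← hmD', hE1,
      ← nsmul_add]
    congr 1
    abel
  have hfne : (f : F) ≠ 0 := 𝔇.coe_ne_zero_of_res_ne_zero hfres0
  have hresdiv : (divOf (𝔇.res f) : Divisor k F₁) = 0 := by
    rw [← hr.mapDomain_divOf hfres0, hfdiv, mapDomain_nsmul, Finsupp.mapDomain_sub, hrE1, hrE2,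
      sub_self, smul_zero]
  have hfV : (f : F) ∈ riemannRochSpace (m • E2) := by
    rw [mem_rr_iff_divOf hfne, hfdiv, nsmul_sub, add_sub_cancel]
    exact nsmul_nonneg hE10 m
  have hone2 : (1 : F) ∈ riemannRochSpace (m • E2) := one_mem_rr (nsmul_nonneg hE20 m)
  -- best approximation of `f` by constants
  have hconst_red : ∀ c : k, algebraMap k F₁ c ∈ 𝔇.red (Submodule.span L {(1 : F)}) := by
    intro c
    obtain ⟨a, rfl⟩ := 𝔇.π_surj c
    refine ⟨𝔇.cst a, ?_, 𝔇.res_cst a⟩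
    rw [Data.coe_cst, Algebra.algebraMap_eq_smul_one]
    exact Submodule.smul_mem _ _ (Submodule.mem_span_singleton_self _)
  obtain ⟨cb, hcb⟩ : ∃ c : k, algebraMap k F₁ c = 𝔇.res f := by
    apply exists_eq_algebraMap_of_forall_ord_nonneg
    intro v
    rw [← divOf_apply, hresdiv, Finsupp.zero_apply]
  have hspan1 : Submodule.span L {(1 : F)} ≤ riemannRochSpace (m • E2) := by
    rw [Submodule.span_le, Set.singleton_subset_iff]
    exact hone2
  obtain ⟨c0, a, φ, hc0, ha, hφV, hfeq, hφ⟩ := exists_best 𝔇 (Submodule.span L {(1 : F)})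
    (riemannRochSpace (m • E2)) hspan1 f hfV (by rw [← hcb]; exact hconst_red cb)
  have hresc0 : 𝔇.res c0 = 𝔇.res f := by
    rw [hfeq, map_add, map_mul, Data.res_cst, ha, map_zero, zero_mul, add_zero]
  obtain ⟨a0, ha0⟩ := Submodule.mem_span_singleton.mp hc0
  rw [← Algebra.algebraMap_eq_smul_one] at ha0
  by_cases ha00 : a = 0
  · -- `f` is constant
    have h1 : (f : F) = algebraMap L F a0 := by
      rw [hfeq, ha00, cst_zero, zero_mul, add_zero, ha0]
    have h2 : m • (E1 - E2) = 0 := by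
      rw [← hfdiv, h1, divOf_algebraMap]
    have h3 : E1 - E2 = 0 := by
      ext v
      have h4 := congrArg (fun D : Divisor L F => D v) h2
      simp only [Finsupp.smul_apply, Finsupp.zero_apply, nsmul_eq_mul] at h4
      rcases mul_eq_zero.mp h4 with h5 | h5
      · exact absurd (by exact_mod_cast h5) hm0
      · rw [h5, Finsupp.zero_apply]
    refine ⟨h⁻¹, inv_ne_zero hhne, fun v => ?_⟩
    have h6 : D = -divOf h := by
      have h7 : D + divOf h = 0 := by
        rw [← h3, hE1]; abel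
      exact eq_neg_of_add_eq_zero_left h7
    rw [h6, Finsupp.neg_apply, divOf_apply, v.ord_inv]
  exfalso
  have hφ' := hφ.resolve_left ha00
  apply hφ'
  -- it suffices to show that `res φ` is constant
  suffices hsuff : 𝔇.res φ ∈ riemannRochSpace Eb by
    obtain ⟨c, hc⟩ := exists_const_of_mem hEb0 hEb1 hsuff
    rw [← hc]
    exact hconst_red c
  -- auxiliary divisor `G` of large degree
  obtain ⟨c₂, hc₂⟩ := hr2
  obtain ⟨c₃, hc₃⟩ := exists_isPoleDiv_rr (K := k) (F := F₁)
  obtain ⟨P₀⟩ := Fermat.Agent.FunField.exists_place (K := L) (F := F)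
  set n : ℤ := g + max (max c₂ c₃) 0 with hn
  have hn2 : c₂ ≤ n - g := by
    rw [hn, add_sub_cancel_left]; exact (le_max_left _ _).trans (le_max_left _ _)
  have hn3 : c₃ ≤ n - g := by
    rw [hn, add_sub_cancel_left]; exact (le_max_right _ _).trans (le_max_left _ _)
  have hn0 : 0 ≤ n - g := by
    rw [hn, add_sub_cancel_left]; exact le_max_right _ _
  set G : Divisor L F := Finsupp.single P₀ n with hG
  have hGdeg : Divisor.degree G = n := by
    rw [hG, Divisor.degree_single, Fermat.Agent.Deuring.deg_eq_one P₀]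
    norm_num
  set Gb : Divisor k F₁ := Finsupp.mapDomain r G with hGb
  set Hb : Divisor k F₁ := Gb - Eb with hHb
  have hred1 : 𝔇.red (riemannRochSpace (G - E1)) = riemannRochSpace Hb := by
    rw [hc₂ _ (by rw [map_sub, hGdeg, hE1deg]; exact hn2), Finsupp.mapDomain_sub, hrE1]
  have hred2 : 𝔇.red (riemannRochSpace (G - E2)) = riemannRochSpace Hb := by
    rw [hc₂ _ (by rw [map_sub, hGdeg, hE2deg]; exact hn2), Finsupp.mapDomain_sub, hrE2]
  have hHbdeg : Divisor.degree Hb = n - g := by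
    rw [hHb, map_sub, hGb, degree_mapDomain', hGdeg, hEbdeg, hgk]
  obtain ⟨ub, hub, hub0, hubord⟩ := (hc₃ Hb (by rw [hHbdeg]; exact hn3)).exists_generic
    (insert (r P₀) Eb.support) (Finset.insert_nonempty _ _)
  -- lift `ub`
  obtain ⟨u1, hu1, hu1res⟩ : ∃ u1 : 𝔇.O, (u1 : F) ∈ riemannRochSpace (G - E1) ∧
      𝔇.res u1 = ub := by
    rw [← hred1] at hub
    exact hub
  have hu1G : (u1 : F) ∈ riemannRochSpace G :=
    Fermat.Agent.FunField.rr_mono (sub_le_self G hE10) hu1
  obtain ⟨u2, b, ψ, hu2, hb, hψG, hueq, hψ⟩ := exists_best 𝔇 (riemannRochSpace (G - E2))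
    (riemannRochSpace G) (Fermat.Agent.FunField.rr_mono (sub_le_self G hE20)) u1 hu1G
    (by rw [hu1res, hred2]; exact hub)
  have hu2res : 𝔇.res u2 = ub := by
    rw [← hu1res, hueq, map_add, map_mul, Data.res_cst, hb, map_zero, zero_mul, add_zero]
  have hψb : 𝔇.res ψ ∈ riemannRochSpace Gb := hr.red_le G ⟨ψ, hψG, rfl⟩
  have hφb : 𝔇.res φ ∈ riemannRochSpace (m • Eb) := by
    have := hr.red_le (m • E2) ⟨φ, hφV, rfl⟩
    rwa [mapDomain_nsmul, hrE2] at this
  -- Taylor expansion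
  obtain ⟨n', hn'⟩ := Nat.exists_eq_succ_of_ne_zero hm0
  obtain ⟨Q, hQ⟩ := Polynomial.powAddExpansion u2 (𝔇.cst b * ψ) m
  rw [← hueq] at hQ
  -- the comparison element
  have hX : ((f * u2 ^ m - c0 * u1 ^ m : 𝔇.O) : F) ∈ riemannRochSpace (m • (G - E1)) := by
    have e1 : m • (G - E1) + m • (E1 - E2) = m • (G - E2) := by
      rw [← nsmul_add]; congr 1; abel
    have e2 : ((u2 : 𝔇.O) : F) ^ m ∈ riemannRochSpace (m • (G - E2)) := Fermat.Agent.Deuring.pow_mem_rr hu2 m
    have e3 : ((u1 : 𝔇.O) : F) ^ m ∈ riemannRochSpace (m • (G - E1)) := Fermat.Agent.Deuring.pow_mem_rr hu1 m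
    have e4 : (f : F) * ((u2 : 𝔇.O) : F) ^ m ∈ riemannRochSpace (m • (G - E1)) := by
      rw [mul_mem_rr_iff hfne (fun v => (divOf_apply (f : F) v)), hfdiv, e1]
      exact e2
    have e5 : (c0 : F) * ((u1 : 𝔇.O) : F) ^ m ∈ riemannRochSpace (m • (G - E1)) := by
      rw [← ha0, ← Algebra.smul_def]
      exact Submodule.smul_mem _ _ e3
    exact Submodule.sub_mem _ e4 e5
  have hredm : 𝔇.red (riemannRochSpace (m • (G - E1))) = riemannRochSpace (m • Hb) := by
    rw [hc₂ _ ?_, mapDomain_nsmul, Finsupp.mapDomain_sub, hrE1]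
    rw [map_nsmul, map_sub, hGdeg, hE1deg, nsmul_eq_mul]
    have hm1 : (1 : ℤ) ≤ m := by exact_mod_cast Nat.one_le_iff_ne_zero.mpr hm0
    nlinarith
  have hscale : ∀ (d : 𝔇.A) (Y : 𝔇.O), (d : L) ≠ 0 → f * u2 ^ m - c0 * u1 ^ m = 𝔇.cst d * Y →
      𝔇.res Y ∈ riemannRochSpace (m • Hb) := by
    intro d Y hd hY
    rw [← hredm]
    refine ⟨Y, ?_, rfl⟩
    have h1 : (Y : F) = (d : L)⁻¹ • ((f * u2 ^ m - c0 * u1 ^ m : 𝔇.O) : F) := by
      rw [hY]
      push_cast
      rw [Data.coe_cst, Algebra.smul_def, ← mul_assoc, ← map_mul, inv_mul_cancel₀ hd, map_one,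
        one_mul]
    rw [h1]
    exact Submodule.smul_mem _ _ hX
  have hc0res : 𝔇.res c0 = algebraMap k F₁ cb := by rw [hresc0, hcb]
  have hcb0 : cb ≠ 0 := by
    rintro rfl
    rw [map_zero] at hcb
    exact hfres0 hcb.symm
  -- the local statement
  have hHbv : ∀ v, Hb v = Gb v - Eb v := fun v => by rw [hHb, Finsupp.sub_apply]
  have hEbv : ∀ v, 0 ≤ Eb v := fun v => by
    have := Finsupp.le_def.mp hEb0 v
    rwa [Finsupp.zero_apply] at this
  have hmHb : ∀ {x : F₁}, x ∈ riemannRochSpace (m • Hb) → ∀ v : Place k F₁,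
      x ∈ geSub v (-((n' + 1 : ℕ) * Hb v)) := by
    intro x hx v
    have := mem_rr.mp hx v
    rwa [Finsupp.smul_apply, nsmul_eq_mul, hn'] at this
  by_cases hcase : ∃ b' : 𝔇.A, b = a * b'
  · -- case `a ∣ b`
    obtain ⟨b', hb'⟩ := hcase
    have haL : (a : L) ≠ 0 := fun h0 => ha00 (Subtype.ext h0)
    set Y : 𝔇.O := φ * u2 ^ m - c0 * (m * u2 ^ (m - 1) * (𝔇.cst b' * ψ))
      - c0 * (Q * (𝔇.cst b' * 𝔇.cst b * ψ ^ 2)) with hY
    have hYeq : f * u2 ^ m - c0 * u1 ^ m = 𝔇.cst a * Y := by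
      have h1 : 𝔇.cst b = 𝔇.cst a * 𝔇.cst b' := by rw [hb', cst_mul]
      exact algA hfeq hQ h1
    have h1 := hscale a Y haL hYeq
    set ρ : F₁ := 𝔇.res φ * ub - algebraMap k F₁ (cb * m * 𝔇.π b') * 𝔇.res ψ with hρ
    have hresY : 𝔇.res Y = ρ * ub ^ n' := by
      rw [hY, map_sub, map_sub, map_mul, map_mul, map_mul, map_mul, map_mul, map_mul, map_mul,
        map_mul, map_mul, map_pow, map_pow, map_pow, Data.res_cst, Data.res_cst, hb, map_zero,
        hu2res, hc0res, map_natCast, hρ, map_mul, map_mul, map_natCast, hn']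
      simp only [Nat.succ_eq_add_one, Nat.add_sub_cancel]
      ring
    rw [hresY] at h1
    rw [mem_rr]
    intro v
    by_cases hv : v ∈ Eb.support
    · have hvord := hubord v (Finset.mem_insert_of_mem hv)
      have h2 := mem_geSub_of_mul_pow hub0 hvord n' (hmHb h1 v)
      have h3 : ρ ∈ geSub v (-(Gb v)) := geSub_anti v (by rw [hHbv]; have := hEbv v; omega) h2
      have h4 : algebraMap k F₁ (cb * m * 𝔇.π b') * 𝔇.res ψ ∈ geSub v (-(Gb v)) := by
        rw [← Algebra.smul_def]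
        exact Submodule.smul_mem _ _ (mem_rr.mp hψb v)
      have h5 : 𝔇.res φ * ub ∈ geSub v (-(Gb v)) := by
        have : 𝔇.res φ * ub = ρ + algebraMap k F₁ (cb * m * 𝔇.π b') * 𝔇.res ψ := by
          rw [hρ]; ring
        rw [this]
        exact Submodule.add_mem _ h3 h4
      rcases eq_or_ne (𝔇.res φ) 0 with h0 | h0
      · rw [h0]; exact Submodule.zero_mem _
      rw [mem_geSub_of_ne (mul_ne_zero h0 hub0), v.ord_mul h0 hub0, hvord, hHbv] at h5
      rw [mem_geSub_of_ne h0]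
      omega
    · have hv0 : Eb v = 0 := Finsupp.notMem_support_iff.mp hv
      have := mem_rr.mp hφb v
      rw [Finsupp.smul_apply, hv0, smul_zero] at this
      rw [hv0]
      exact this
  · -- case `b ∣ a` strictly
    exfalso
    have hbL : (b : L) ≠ 0 := by
      intro h0
      exact hcase ⟨0, by rw [mul_zero]; exact Subtype.ext h0⟩
    have hb0 : b ≠ 0 := fun h0 => hbL (by rw [h0]; rfl)
    have haL : (a : L) ≠ 0 := fun h0 => ha00 (Subtype.ext h0)
    have hab : (a : L) / b ∈ 𝔇.A := by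
      rcases 𝔇.A.mem_or_inv_mem ((a : L) / b) with h1 | h1
      · exact h1
      · exfalso
        apply hcase
        refine ⟨⟨_, h1⟩, Subtype.ext ?_⟩
        show (b : L) = a * ((a : L) / b)⁻¹
        field_simp
    set a' : 𝔇.A := ⟨_, hab⟩ with ha'
    have haa' : a = b * a' := by
      apply Subtype.ext
      show (a : L) = b * ((a : L) / b)
      field_simp
    have hπa' : 𝔇.π a' = 0 := by
      rw [𝔇.π_ker]
      intro hu
      obtain ⟨w, hw⟩ := hu.exists_right_inv
      exact hcase ⟨w, by rw [haa', mul_assoc, hw, mul_one]⟩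
    set Y : 𝔇.O := 𝔇.cst a' * (φ * u2 ^ m) - c0 * (m * u2 ^ (m - 1) * ψ)
      - c0 * (Q * (𝔇.cst b * ψ ^ 2)) with hY
    have hYeq : f * u2 ^ m - c0 * u1 ^ m = 𝔇.cst b * Y := by
      have h1 : 𝔇.cst a = 𝔇.cst b * 𝔇.cst a' := by rw [haa', cst_mul]
      exact algB hfeq hQ h1
    have h1 := hscale b Y hbL hYeq
    have hresY : 𝔇.res Y = -(algebraMap k F₁ (cb * m)) * (𝔇.res ψ * ub ^ n') := by
      rw [hY, map_sub, map_sub, map_mul, map_mul, map_mul, map_mul, map_mul, map_mul, map_mul,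
        map_mul, map_mul, map_pow, map_pow, map_pow, Data.res_cst, Data.res_cst, hπa', hb,
        map_zero, hu2res, hc0res, map_natCast, hn']
      simp only [Nat.succ_eq_add_one, Nat.add_sub_cancel]
      push_cast
      ring
    rw [hresY, ← map_neg, ← Algebra.smul_def] at h1
    have hcbm : -(cb * m : k) ≠ 0 := neg_ne_zero.mpr (mul_ne_zero hcb0 hm)
    have h2 : 𝔇.res ψ * ub ^ n' ∈ riemannRochSpace (m • Hb) := by
      have := Submodule.smul_mem _ (-(cb * m : k))⁻¹ h1
      rwa [smul_smul, inv_mul_cancel₀ hcbm, one_smul] at this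
    have h3 : 𝔇.res ψ ∈ riemannRochSpace Hb := by
      rw [mem_rr]
      intro v
      by_cases hv : v ∈ Eb.support
      · have hvord := hubord v (Finset.mem_insert_of_mem hv)
        exact mem_geSub_of_mul_pow hub0 hvord n' (hmHb h2 v)
      · have hv0 : Eb v = 0 := Finsupp.notMem_support_iff.mp hv
        rw [hHbv, hv0, sub_zero]
        exact mem_rr.mp hψb v
    exact hψ.resolve_left hb0 (by rw [hred2]; exact h3)

end Fermat.Agent.TorsInj
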