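import Fermat.Agent.TorsInj.S18Core
import Fermat.Agent.HeckeRed.Package

/-!
# S18 from the equality of genera
-/

set_option autoImplicit false
set_option maxHeartbeats 1000000
set_option synthInstance.maxHeartbeats 400000

noncomputable section

open AlgebraicCurve Module ModularCurve HahnSeries

namespace Fermat.Agent.TorsInj

open Fermat.Agent.Deuring Fermat.Agent.FunField Fermat.Agent.HeckeRed Fermat.Agent.Igusa

theorem dat_compat {L : Type*} [Field L] [Algebra ℚ L] (A : ValuationSubring L)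
    {κ : Type*} [Field κ] (π : A →+* κ) [IsLocalHom π] (hπ : Function.Surjective π)
    (N : ℕ) [NeZero N] (hN : (N : κ) ≠ 0) (y : LaurentSeries A)
    (hy : coeffMap A.subtype y ∈ laurentBaseChange L (modularFunctionFieldFull N))
    (hyk : coeffMap π y ∈ modularFunctionFieldFullC κ N) :
    ∃ hO : (⟨coeffMap A.subtype y, hy⟩ : laurentBaseChange L (modularFunctionFieldFull N)) ∈
      (dat A π hπ N hN).O, (dat A π hπ N hN).res ⟨_, hO⟩ = ⟨coeffMap π y, hyk⟩ := by
  have h1 : (⟨coeffMap A.subtype y, hy⟩ : laurentBaseChange L (modularFunctionFieldFull N)) ∈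
      (dat A π hπ N hN).O := (mem_dat A π hπ N hN).mpr (emb_mem_gaussRing y)
  refine ⟨h1, Subtype.ext ?_⟩
  rw [dat_res]
  exact gaussRes_emb y

/-- **S18**, given the equality of genera. -/
theorem eq_zero_of_genusEq (N : ℕ) [NeZero N] (hG : GenusEq N) {ℓ : ℕ}
    [Fact ℓ.Prime] (hℓN : ¬ ℓ ∣ N) (A : ValuationSubring (AlgebraicClosure ℚ))
    (hA : A.LiesOverPrime ℓ)
    (h : ModularCurve.ReductionInputsModL A N) (m : ℕ) (hm : ¬ ℓ ∣ m) (z : ModularCurve.JZero N)
    (hmz : m • z = 0) (hz : ModularCurve.reductionModL A N z = 0) : z = 0 := by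
  have i1 : IsAlgClosed (IsLocalRing.ResidueField A) := isAlgClosed_residueField A
  have i2 : CharP (IsLocalRing.ResidueField A) ℓ := charP_residueField Fact.out hA
  have hN : (N : IsLocalRing.ResidueField A) ≠ 0 := fun h =>
    hℓN ((CharP.cast_eq_zero_iff _ ℓ N).mp h)
  obtain ⟨g, h1, h2⟩ := hG A hN
  exact eq_zero_of_reductionAlong_eq_zero
    (dat A (IsLocalRing.residue A) IsLocalRing.residue_surjective N hN)
    (fun y hy hyk _ => dat_compat A (IsLocalRing.residue A) IsLocalRing.residue_surjective N hN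
      y hy hyk) h1 h2 h (m := m) (fun h0 => hm ((CharP.cast_eq_zero_iff _ ℓ m).mp h0)) z hmz hz

end Fermat.Agent.TorsInj
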