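import Fermat.Agent.TorsInj.DeuringTors
import Fermat.Prelude.Def_ModularCurve_ReductionModL

/-!
# S18 from a Deuring reduction datum for the modular function field
-/

set_option autoImplicit false
set_option maxHeartbeats 1000000
set_option synthInstance.maxHeartbeats 400000

noncomputable section

open AlgebraicCurve Module ModularCurve HahnSeries

namespace Fermat.Agent.TorsInj

open Fermat.Agent.Deuring Fermat.Agent.FunField

theorem pic0_mk_eq_zero_iff {K F : Type*} [Field K] [Field F] [Algebra K F]
    (D : Divisor.degZero (K := K) (F := F)) :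
    Pic0.mk D = 0 ↔ Divisor.IsPrincipal (D : Divisor K F) := by
  show (QuotientAddGroup.mk D : Pic0 K F) = 0 ↔ _
  rw [QuotientAddGroup.eq_zero_iff, AddSubgroup.mem_addSubgroupOf]
  exact Divisor.mem_principal

theorem nsmul_divisor_cancel {α : Type*} {m : ℕ} (hm : m ≠ 0) {D E : α →₀ ℤ}
    (h : m • D = m • E) : D = E := by
  ext v
  have h1 := congrArg (fun D : α →₀ ℤ => D v) h
  simp only [Finsupp.smul_apply, nsmul_eq_mul] at h1
  exact mul_left_cancel₀ (by exact_mod_cast hm) h1

variable {L : Type*} [Field L] [Algebra ℚ L] [IsAlgClosed L] {A : ValuationSubring L}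
  {k : Type*} [Field k] [IsAlgClosed k] {π : A →+* k} {N : ℕ}
  [IsFF L (laurentBaseChange L (modularFunctionFieldFull N))]
  [IsFF k (modularFunctionFieldFullC k N)]

/-- The reduction map on `J₀(N)` is injective on torsion prime to the residue characteristic,
given a Deuring reduction datum and the equality of genera. -/
theorem eq_zero_of_reductionAlong_eq_zero
    (𝔇 : Data L k (laurentBaseChange L (modularFunctionFieldFull N))
      (modularFunctionFieldFullC k N))
    (hcompat : ∀ (y : LaurentSeries A)
      (hy : coeffMap A.subtype y ∈ laurentBaseChange L (modularFunctionFieldFull N))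
      (hyk : coeffMap π y ∈ modularFunctionFieldFullC k N), coeffMap π y ≠ 0 →
        ∃ hO : (⟨coeffMap A.subtype y, hy⟩ : laurentBaseChange L (modularFunctionFieldFull N)) ∈
          𝔇.O, 𝔇.res ⟨_, hO⟩ = ⟨coeffMap π y, hyk⟩)
    {g : ℤ} (hRR : RRLarge L (laurentBaseChange L (modularFunctionFieldFull N)) g)
    (hRR₁ : RRLarge k (modularFunctionFieldFullC k N) g)
    (h : ReductionInputsAlong A π N) {m : ℕ} (hm : (m : k) ≠ 0)
    (z : Pic0 L (laurentBaseChange L (modularFunctionFieldFull N))) (hmz : m • z = 0)
    (hz : reductionAlong A π N z = 0) : z = 0 := by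
  have hm0 : m ≠ 0 := by rintro rfl; exact hm Nat.cast_zero
  obtain ⟨r, hr, hr2⟩ := 𝔇.exists_reduction hRR hRR₁
  have hr : IsPlaceRed 𝔇 r := hr
  obtain ⟨hr', hgen⟩ := h.choose_spec
  set r' := h.choose with hr'def
  obtain ⟨D, rfl⟩ := Pic0.mk_surjective z
  -- agreement of the two reductions on principal divisors
  have hagree : ∀ E ∈ Divisor.principal (K := L)
      (F := laurentBaseChange L (modularFunctionFieldFull N)),
      Finsupp.mapDomain r' E = Finsupp.mapDomain r E := by
    intro E hE
    have hE' := hgen hE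
    clear hE
    induction hE' using AddSubgroup.closure_induction with
    | mem E hE =>
      obtain ⟨y, hy, hyk, hne, hEy⟩ := hE
      obtain ⟨hO, hres⟩ := hcompat y hy hyk hne
      have hres0 : 𝔇.res ⟨_, hO⟩ ≠ 0 := by
        rw [hres]
        intro h0
        exact hne (congrArg Subtype.val h0)
      ext Q
      rw [hr'.2 y hy hyk hne E hEy Q, hr ⟨_, hO⟩ hres0 E hEy Q, hres]
    | zero => rw [Finsupp.mapDomain_zero, Finsupp.mapDomain_zero]
    | add E E' _ _ h1 h2 => rw [Finsupp.mapDomain_add, Finsupp.mapDomain_add, h1, h2]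
    | neg E _ h1 =>
      rw [← Finsupp.mapDomain.addMonoidHom_apply, ← Finsupp.mapDomain.addMonoidHom_apply, map_neg,
        map_neg, Finsupp.mapDomain.addMonoidHom_apply, Finsupp.mapDomain.addMonoidHom_apply, h1]
  have hmD : Divisor.IsPrincipal (m • (D : Divisor L
      (laurentBaseChange L (modularFunctionFieldFull N)))) := by
    have h1 : Pic0.mk (m • D) = 0 := hmz
    rw [pic0_mk_eq_zero_iff] at h1
    exact h1
  have hrD' : Divisor.IsPrincipal (Finsupp.mapDomain r' (D : Divisor L
      (laurentBaseChange L (modularFunctionFieldFull N)))) := by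
    rw [reductionAlong_mk h, pic0_mk_eq_zero_iff] at hz
    exact hz
  have hrr' : Finsupp.mapDomain r' (D : Divisor L
      (laurentBaseChange L (modularFunctionFieldFull N))) = Finsupp.mapDomain r D := by
    apply nsmul_divisor_cancel hm0
    rw [← mapDomain_nsmul, ← mapDomain_nsmul]
    exact hagree _ hmD
  rw [hrr'] at hrD'
  rw [pic0_mk_eq_zero_iff]
  exact torsion_injective hRR hRR₁ hr hr2 hm hmD hrD'

end Fermat.Agent.TorsInj
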