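import Fermat.Agent.Deuring.Main

/-!
# Best approximation by a subspace in a Deuring reduction datum
-/

set_option autoImplicit false

noncomputable section

open AlgebraicCurve Module

namespace Fermat.Agent.TorsInj

open Fermat.Agent.Deuring

variable {L k F F₁ : Type*} [Field L] [Field k] [Field F] [Field F₁] [Algebra L F] [Algebra k F₁]

theorem cst_mul (𝔇 : Data L k F F₁) (a b : 𝔇.A) : 𝔇.cst (a * b) = 𝔇.cst a * 𝔇.cst b := by
  apply Subtype.ext
  show algebraMap L F ((a : L) * (b : L)) = algebraMap L F (a : L) * algebraMap L F (b : L)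
  exact map_mul _ _ _

theorem cst_zero (𝔇 : Data L k F F₁) : 𝔇.cst (0 : 𝔇.A) = 0 := by
  apply Subtype.ext
  show algebraMap L F ((0 : 𝔇.A) : L) = 0
  simp

theorem cst_one (𝔇 : Data L k F F₁) : 𝔇.cst (1 : 𝔇.A) = 1 := by
  apply Subtype.ext
  show algebraMap L F ((1 : 𝔇.A) : L) = 1
  simp

/-- An orthonormal basis of `V` adapted to a subspace `U`. -/
theorem exists_adapted (𝔇 : Data L k F F₁) (U V : Submodule L F) [FiniteDimensional L V]
    (hUV : U ≤ V) :
    ∃ (m n : ℕ) (e : Fin m → 𝔇.O) (c : Fin n → 𝔇.O), (∀ i, ((e i : 𝔇.O) : F) ∈ U) ∧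
      (∀ i, ((c i : 𝔇.O) : F) ∈ V) ∧
      LinearIndependent k (fun j => (𝔇.red U).mkQ (𝔇.res (c j))) ∧
      ∀ v : 𝔇.O, (v : F) ∈ V → ∃ (β : Fin m → 𝔇.A) (γ : Fin n → 𝔇.A),
        v = ∑ i, 𝔇.cst (β i) * e i + ∑ j, 𝔇.cst (γ j) * c j := by
  classical
  have hUfin : FiniteDimensional L U := Submodule.finiteDimensional_of_le hUV
  obtain ⟨e, heU, he, -, hered⟩ := 𝔇.exists_orthonormal U
  -- the image of `red V` in the quotient
  let Q : Submodule k (F₁ ⧸ 𝔇.red U) := (𝔇.red V).map (𝔇.red U).mkQ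
  have hQfin : FiniteDimensional k Q := inferInstance
  have hQ : finrank k Q + finrank k (𝔇.red U) = finrank k (𝔇.red V) := by
    have h1 := LinearMap.finrank_range_add_finrank_ker ((𝔇.red U).mkQ.comp (𝔇.red V).subtype)
    have h2 : LinearMap.range ((𝔇.red U).mkQ.comp (𝔇.red V).subtype) = Q := by
      rw [LinearMap.range_comp, Submodule.range_subtype]
    have h3 : LinearMap.ker ((𝔇.red U).mkQ.comp (𝔇.red V).subtype)
        = (𝔇.red U).comap (𝔇.red V).subtype := by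
      rw [LinearMap.ker_comp, Submodule.ker_mkQ]
    rw [h2, h3, (Submodule.comapSubtypeEquivOfLe (𝔇.red_mono hUV)).finrank_eq] at h1
    exact h1
  let b := Module.finBasis k Q
  have hlift : ∀ j, ∃ c : 𝔇.O, (c : F) ∈ V ∧ (𝔇.red U).mkQ (𝔇.res c) = (b j : F₁ ⧸ 𝔇.red U) := by
    intro j
    obtain ⟨x, hx, hxb⟩ := (b j).2
    obtain ⟨f, hf, rfl⟩ := hx
    exact ⟨f, hf, hxb⟩
  choose c hcV hc using hlift
  have hli : LinearIndependent k (fun j => (𝔇.red U).mkQ (𝔇.res (c j))) := by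
    have h1 : (fun j => (𝔇.red U).mkQ (𝔇.res (c j))) = Q.subtype ∘ b := by
      funext j
      rw [hc j]; rfl
    rw [h1]
    exact b.linearIndependent.map' _ (Submodule.ker_subtype Q)
  refine ⟨_, _, e, c, heU, hcV, hli, fun v hv => ?_⟩
  -- linear independence of the union
  let f' : Fin (finrank L U) → 𝔇.red U := fun i => ⟨𝔇.res (e i), 𝔇.res_mem_red (heU i)⟩
  have hf' : LinearIndependent k f' := by
    apply LinearIndependent.of_comp (𝔇.red U).subtype
    exact he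
  have hsum := LinearIndependent.sumElim_of_quotient hf' (fun j => 𝔇.res (c j)) hli
  let w : Fin (finrank L U) ⊕ Fin (finrank k Q) → 𝔇.O := Sum.elim e c
  have hww : (fun i => 𝔇.res (w i))
      = Sum.elim (fun x => ((f' x : 𝔇.red U) : F₁)) (fun j => 𝔇.res (c j)) := by
    funext i
    rcases i with i | j <;> rfl
  have hw : LinearIndependent k (fun i => 𝔇.res (w i)) := by
    rw [hww]
    exact hsum
  have hwL := 𝔇.linearIndependent_of_res w hw
  have hwV : ∀ i, ((w i : 𝔇.O) : F) ∈ V := by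
    rintro (i | j)
    · exact hUV (heU i)
    · exact hcV j
  have hwL' : LinearIndependent L (fun i => (⟨((w i : 𝔇.O) : F), hwV i⟩ : V)) := by
    apply LinearIndependent.of_comp V.subtype
    exact hwL
  have hcard : Fintype.card (Fin (finrank L U) ⊕ Fin (finrank k Q)) = finrank L V := by
    rw [Fintype.card_sum, Fintype.card_fin, Fintype.card_fin, ← 𝔇.finrank_red U, add_comm, hQ,
      𝔇.finrank_red V]
  have htop := hwL'.span_eq_top_of_card_eq_finrank' hcard
  have hvmem : (⟨(v : F), hv⟩ : V) ∈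
      Submodule.span L (Set.range fun i => (⟨((w i : 𝔇.O) : F), hwV i⟩ : V)) := by
    rw [htop]; trivial
  obtain ⟨d, hd⟩ := (Submodule.mem_span_range_iff_exists_fun L).mp hvmem
  have hd' : ∑ i, d i • ((w i : 𝔇.O) : F) = v := by
    have := congrArg Subtype.val hd
    simpa using this
  have hdA : ∀ i, d i ∈ 𝔇.A := 𝔇.coeff_mem w hw d (by rw [hd']; exact v.2)
  refine ⟨fun i => ⟨d (Sum.inl i), hdA _⟩, fun j => ⟨d (Sum.inr j), hdA _⟩, ?_⟩
  apply Subtype.ext
  push_cast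
  rw [← hd', Fintype.sum_sum_type]
  congr 1
  · refine Finset.sum_congr rfl fun i _ => ?_
    rw [Algebra.smul_def]; rfl
  · refine Finset.sum_congr rfl fun i _ => ?_
    rw [Algebra.smul_def]; rfl

/-- Best approximation of `v ∈ V ∩ O` by elements of `U`, when the reduction of `v` lies in the
reduction of `U`. -/
theorem exists_best (𝔇 : Data L k F F₁) (U V : Submodule L F) [FiniteDimensional L V]
    (hUV : U ≤ V) (v : 𝔇.O) (hv : (v : F) ∈ V) (hres : 𝔇.res v ∈ 𝔇.red U) :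
    ∃ (u : 𝔇.O) (b : 𝔇.A) (ψ : 𝔇.O), (u : F) ∈ U ∧ 𝔇.π b = 0 ∧ (ψ : F) ∈ V ∧
      v = u + 𝔇.cst b * ψ ∧ (b = 0 ∨ 𝔇.res ψ ∉ 𝔇.red U) := by
  classical
  obtain ⟨m, n, e, c, heU, hcV, hli, hspan⟩ := exists_adapted 𝔇 U V hUV
  obtain ⟨β, γ, hvs⟩ := hspan v hv
  have huU : ((∑ i, 𝔇.cst (β i) * e i : 𝔇.O) : F) ∈ U := by
    push_cast
    refine U.sum_mem fun i _ => ?_
    rw [Data.coe_cst, ← Algebra.smul_def]
    exact U.smul_mem _ (heU i)
  -- the residues of `γ` vanish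
  have hγ : ∀ j, 𝔇.π (γ j) = 0 := by
    have h1 : 𝔇.res v = 𝔇.res (∑ i, 𝔇.cst (β i) * e i) + ∑ j, 𝔇.π (γ j) • 𝔇.res (c j) := by
      rw [hvs, map_add, map_sum (g := 𝔇.res) (f := fun j => 𝔇.cst (γ j) * c j)]
      congr 1
      refine Finset.sum_congr rfl fun j _ => ?_
      rw [map_mul, Data.res_cst, Algebra.smul_def]
    have h2 : ∑ j, 𝔇.π (γ j) • 𝔇.res (c j) ∈ 𝔇.red U := by
      have : ∑ j, 𝔇.π (γ j) • 𝔇.res (c j)
          = 𝔇.res v - 𝔇.res (∑ i, 𝔇.cst (β i) * e i) := by rw [h1]; ring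
      rw [this]
      exact Submodule.sub_mem _ hres (𝔇.res_mem_red huU)
    have h3 : ∑ j, 𝔇.π (γ j) • (𝔇.red U).mkQ (𝔇.res (c j)) = 0 := by
      rw [← map_zero (𝔇.red U).mkQ, eq_comm]
      have h4 : (𝔇.red U).mkQ (∑ j, 𝔇.π (γ j) • 𝔇.res (c j)) = 0 := by
        rw [Submodule.mkQ_apply, Submodule.Quotient.mk_eq_zero]
        exact h2
      rw [map_sum] at h4
      rw [map_zero, ← h4]
      refine Finset.sum_congr rfl fun j _ => ?_
      rw [map_smul]
    exact Fintype.linearIndependent_iff.mp hli _ h3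
  by_cases hzero : ∀ j, γ j = 0
  · refine ⟨_, 0, 0, huU, map_zero _, by simp, ?_, Or.inl rfl⟩
    have h1 : 𝔇.cst (0 : 𝔇.A) = 0 := Subtype.ext (by simp)
    conv_lhs => rw [hvs]
    congr 1
    rw [h1, zero_mul]
    refine Finset.sum_eq_zero fun j _ => ?_
    rw [hzero j, h1, zero_mul]
  · push Not at hzero
    obtain ⟨j₀, hj₀⟩ := hzero
    obtain ⟨j, hj0, hj⟩ := 𝔇.exists_scale (fun j => ((γ j : 𝔇.A) : L))
      (fun h => hj₀ (Subtype.ext (congrFun h j₀)))
    let δ : Fin n → 𝔇.A := fun i => ⟨_, hj i⟩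
    have hδ : ∀ i, γ i = γ j * δ i := by
      intro i
      apply Subtype.ext
      show ((γ i : 𝔇.A) : L) = (γ j : L) * ((γ i : L) / (γ j : L))
      field_simp
    refine ⟨_, γ j, ∑ i, 𝔇.cst (δ i) * c i, huU, hγ j, ?_, ?_, Or.inr ?_⟩
    · push_cast
      refine V.sum_mem fun i _ => ?_
      rw [Data.coe_cst, ← Algebra.smul_def]
      exact V.smul_mem _ (hcV i)
    · conv_lhs => rw [hvs]
      congr 1
      rw [Finset.mul_sum]
      refine Finset.sum_congr rfl fun i _ => ?_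
      rw [hδ i, ← mul_assoc, cst_mul]
    · intro hmem
      have h1 : 𝔇.res (∑ i, 𝔇.cst (δ i) * c i) = ∑ i, 𝔇.π (δ i) • 𝔇.res (c i) := by
        rw [map_sum]
        refine Finset.sum_congr rfl fun i _ => ?_
        rw [map_mul, Data.res_cst, Algebra.smul_def]
      rw [h1] at hmem
      have h3 : ∑ i, 𝔇.π (δ i) • (𝔇.red U).mkQ (𝔇.res (c i)) = 0 := by
        have h4 : (𝔇.red U).mkQ (∑ i, 𝔇.π (δ i) • 𝔇.res (c i)) = 0 := by
          rw [Submodule.mkQ_apply, Submodule.Quotient.mk_eq_zero]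
          exact hmem
        rw [map_sum] at h4
        rw [← h4]
        refine Finset.sum_congr rfl fun i _ => ?_
        rw [map_smul]
      have h5 := Fintype.linearIndependent_iff.mp hli _ h3 j
      have h6 : δ j = 1 := Subtype.ext (div_self hj0)
      rw [h6, map_one] at h5
      exact one_ne_zero h5

end Fermat.Agent.TorsInj
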