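import Fermat.Agent.TorsInj.S18Glue
import Fermat.Agent.Cusps.GenusEq

/-!
# S18
-/

set_option autoImplicit false
set_option maxHeartbeats 1000000
set_option synthInstance.maxHeartbeats 400000

noncomputable section

open AlgebraicCurve Module ModularCurve HahnSeries

namespace Fermat.Agent.TorsInj

open Fermat.Agent.Deuring Fermat.Agent.FunField Fermat.Agent.HeckeRed

theorem rrLarge_of_eq {K Ω : Type*} [Field K] [Field Ω] [Algebra K Ω]
    {E E' : IntermediateField K Ω} (h : E = E') {g : ℤ} (hE : RRLarge K E g) :
    RRLarge K E' g := by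
  subst h; exact hE

/-- **S18** from the equality of genera in the form `genusFF`. -/
theorem eq_zero_of_genusFF_eq (N : ℕ) [NeZero N] {ℓ : ℕ}
    [Fact ℓ.Prime] (hℓN : ¬ ℓ ∣ N) (A : ValuationSubring (AlgebraicClosure ℚ))
    (hA : A.LiesOverPrime ℓ)
    (hg : genusFF (IsLocalRing.ResidueField A)
        (modularFunctionFieldFullC (IsLocalRing.ResidueField A) N) =
      genusFF (AlgebraicClosure ℚ) (modularFunctionFieldFullC (AlgebraicClosure ℚ) N))
    (h : ModularCurve.ReductionInputsModL A N) (m : ℕ) (hm : ¬ ℓ ∣ m) (z : ModularCurve.JZero N)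
    (hmz : m • z = 0) (hz : ModularCurve.reductionModL A N z = 0) : z = 0 := by
  have i1 : IsAlgClosed (IsLocalRing.ResidueField A) := isAlgClosed_residueField A
  have i2 : CharP (IsLocalRing.ResidueField A) ℓ := charP_residueField Fact.out hA
  have hN : (N : IsLocalRing.ResidueField A) ≠ 0 := fun h =>
    hℓN ((CharP.cast_eq_zero_iff _ ℓ N).mp h)
  have h2 : RRLarge (IsLocalRing.ResidueField A)
      (modularFunctionFieldFullC (IsLocalRing.ResidueField A) N)
      (genusFF (IsLocalRing.ResidueField A)
        (modularFunctionFieldFullC (IsLocalRing.ResidueField A) N)) :=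
    rrLarge_genusFF
  have h1 : RRLarge (AlgebraicClosure ℚ)
      (laurentBaseChange (AlgebraicClosure ℚ) (modularFunctionFieldFull N))
      (genusFF (IsLocalRing.ResidueField A)
        (modularFunctionFieldFullC (IsLocalRing.ResidueField A) N)) := by
    rw [hg]
    exact rrLarge_of_eq (HeckeRed.laurentBaseChange_full (AlgebraicClosure ℚ) N).symm
      rrLarge_genusFF
  exact eq_zero_of_reductionAlong_eq_zero
    (dat A (IsLocalRing.residue A) IsLocalRing.residue_surjective N hN)
    (fun y hy hyk _ => dat_compat A (IsLocalRing.residue A) IsLocalRing.residue_surjective N hN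
      y hy hyk) h1 h2 h (m := m) (fun h0 => hm ((CharP.cast_eq_zero_iff _ ℓ m).mp h0)) z hmz hz

end Fermat.Agent.TorsInj
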